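import Mathlib
import Fermat.Agent.LT.T2.Spec
import Fermat.Agent.LT.T1.H886.AddFundDom

/-!
# Row LT, tower T2, shared asset CUSP-ALG (helper886): linear algebra of cusp functions

OFF-MAIN.  Imports: Mathlib, `LT/T2/Spec.lean` (helper130@87ff7c8b8, v1, byte-identical copy,
sha256 1b305586...), `LT/T1/H886/AddFundDom.lean` (helper886) and its imports.
NO new notion: every statement is about `A0.IsCuspidalFn`, `T2.IsCuspFn`, `T2.pair`, `T2.nsq`.

1. `unipG886 x = [[1,x],[0,1]] : G K`, `continuous_unipG886`, `eq_unipG886` (the function `n` of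
   `A0.IsCuspidalFn` is unique).
2. EVERY fundamental domain `D` of `K` in `𝔸_K` (as quantified in `A0.IsCuspidalFn`) has
   `0 < μ D = μ (fundDom886 K) < ∞` (`measure_eq_fundDom886`, `measure_lt_top_of_fundDom886`,
   `measure_pos_of_fundDom886`); `integrableOn_unip886`: `x ↦ φ(n(x) g)` is integrable on `D` for
   `φ` continuous and bounded.
3. `isCuspidalFn_iff886` (unfolded form, with `constTerm886`), closure of `A0.IsCuspidalFn` under
   `0`, `c * ·`, `-`, `+`, `-` (binary), right translation, and UNIFORM LIMITS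
   (`isCuspidalFn_of_uniform_limit886`).
4. `T2.IsCuspFn 𝔫` is closed under `0`, `c * ·`, `-`, `+`, `-`, `φ + c * ψ` (the combinations of
   `T2.OpsGood`), finite sums, and UNIFORM LIMITS (`isCuspFn_of_uniform_limit886`).
5. The pairing of a frame: `integrableOn_mul_conj886`, `pair_add_left886`,
   `pair_const_mul_left886`, `pair_conj_symm886`, `pair_add_right886`, `pair_const_mul_right886`,
   `pair_neg_left886`, `pair_sub_left886`, `pair_self886`, `nsq_eq886` (`= ∫_D |φ|²`),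
   `nsq_nonneg886`, `nsq_le_of_bound886` (`‖φ‖₂² ≤ ‖φ‖_∞² μ(D)`).
6. `cuspSubmodule886 𝔫 : Submodule ℂ (G K → ℂ)`, `preCore886 F 𝔫 : PreInnerProductSpace.Core`,
   Cauchy--Schwarz `norm_pair_sq_le886`, `core886 F 𝔫 (h : PairDefinite K 𝔫) :
   InnerProductSpace.Core ℂ (cuspSubmodule886 𝔫)` (the pre-Hilbert space `V` of T2.09),
   `tendsto_nsq_of_uniform_limit886`, `exists_limit_of_uniformCauchy886` (a uniformly Cauchy
   sequence of cusp functions converges uniformly and in `L²` to a cusp function: the second half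
   of T2.05).
-/

set_option autoImplicit false

open IsDedekindDomain NumberField MeasureTheory
open scoped Classical

noncomputable section

namespace Fermat.Agent.LT.T2.H886

open Fermat.Agent.LT.H556.A0 Fermat.Agent.LT.T1 Fermat.Agent.LT.T2 Fermat.Agent.LT.T1.H886

variable {K : Type} [Field K] [NumberField K]

/-! ## 1. The unipotent elements `n(x)` -/

/-- `n(x) = [[1, x], [0, 1]]` as an element of `GL₂(𝔸_K)`. -/
def unipG886 (x : Adl K) : G K :=
  ⟨!![1, x; 0, 1], !![1, -x; 0, 1],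
    by simp [Matrix.one_fin_two],
    by simp [Matrix.one_fin_two]⟩

theorem coe_unipG886 (x : Adl K) :
    (unipG886 x : Matrix (Fin 2) (Fin 2) (Adl K)) = !![1, x; 0, 1] := rfl

/-- The function `n` of `A0.IsCuspidalFn` is unique. -/
theorem eq_unipG886 (n : Adl K → G K)
    (hn : ∀ x : Adl K, (n x : Matrix (Fin 2) (Fin 2) (Adl K)) = !![1, x; 0, 1]) :
    n = unipG886 := by
  funext x
  exact Units.ext (hn x)

theorem continuous_matrix_unip886 : Continuous fun x : Adl K =>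
    (!![1, x; 0, 1] : Matrix (Fin 2) (Fin 2) (Adl K)) := by
  refine continuous_matrix fun i j => ?_
  fin_cases i <;> fin_cases j <;> simp <;> fun_prop

/-- `x ↦ n(x)` is continuous. -/
theorem continuous_unipG886 : Continuous (unipG886 : Adl K → G K) := by
  rw [Units.continuous_iff]
  refine ⟨continuous_matrix_unip886, ?_⟩
  have h : (fun x : Adl K => (((unipG886 x)⁻¹ : G K) : Matrix (Fin 2) (Fin 2) (Adl K)))
      = (fun x : Adl K => (!![1, x; 0, 1] : Matrix (Fin 2) (Fin 2) (Adl K))) ∘ fun x => -x := by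
    funext x
    rfl
  rw [h]
  exact continuous_matrix_unip886.comp continuous_neg

/-! ## 2. Every fundamental domain of `K` in `𝔸_K` has the same finite positive measure -/

section FD

variable (K)

theorem measurableConstVAdd_princ886 [MeasurableSpace (Adl K)] [BorelSpace (Adl K)] :
    MeasurableConstVAdd (princ K) (Adl K) :=
  ⟨fun c => (continuous_const_vadd c).measurable⟩

variable {K}

/-- Two fundamental domains have the same measure. -/
theorem measure_eq_fundDom886 [MeasurableSpace (Adl K)] [BorelSpace (Adl K)]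
    (μ : Measure (Adl K)) [μ.IsAddHaarMeasure] {D : Set (Adl K)}
    (hD : IsAddFundamentalDomain (princ K) D μ) : μ D = μ (fundDom886 K) := by
  have := countable_princ886 K
  have := measurableConstVAdd_princ886 K
  have : VAddInvariantMeasure (princ K) (Adl K) μ := inferInstance
  exact hD.measure_eq (isAddFundamentalDomain_fundDom886 K μ)

theorem measure_lt_top_of_fundDom886 [MeasurableSpace (Adl K)] [BorelSpace (Adl K)]
    (μ : Measure (Adl K)) [μ.IsAddHaarMeasure] {D : Set (Adl K)}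
    (hD : IsAddFundamentalDomain (princ K) D μ) : μ D < ⊤ := by
  rw [measure_eq_fundDom886 μ hD]
  exact measure_fundDom886_lt_top K μ

theorem measure_pos_of_fundDom886 [MeasurableSpace (Adl K)] [BorelSpace (Adl K)]
    (μ : Measure (Adl K)) [μ.IsAddHaarMeasure] {D : Set (Adl K)}
    (hD : IsAddFundamentalDomain (princ K) D μ) : 0 < μ D := by
  rw [measure_eq_fundDom886 μ hD]
  exact measure_fundDom886_pos K μ

/-- For `φ` continuous and bounded, `x ↦ φ(n(x) g)` is integrable on every fundamental domain. -/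
theorem integrableOn_unip886 [MeasurableSpace (Adl K)] [BorelSpace (Adl K)]
    (μ : Measure (Adl K)) [μ.IsAddHaarMeasure] {D : Set (Adl K)}
    (hD : IsAddFundamentalDomain (princ K) D μ) {φ : G K → ℂ} (hc : Continuous φ)
    {C : ℝ} (hb : ∀ g : G K, ‖φ g‖ ≤ C) (g : G K) :
    IntegrableOn (fun x : Adl K => φ (unipG886 x * g)) D μ := by
  have hcont : Continuous fun x : Adl K => φ (unipG886 x * g) :=
    hc.comp (continuous_unipG886.mul continuous_const)
  refine Measure.integrableOn_of_bounded (M := C) (measure_lt_top_of_fundDom886 μ hD).ne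
    hcont.aestronglyMeasurable ?_
  exact Filter.Eventually.of_forall fun x => hb _

end FD

/-! ## 3. `A0.IsCuspidalFn`: unfolded form and closure properties -/

section Cuspidal

/-- The condition of `A0.IsCuspidalFn` for ONE Haar measure, ONE fundamental domain and one `g`,
with the unique function `n = unipG886`. -/
def constTerm886 [MeasurableSpace (Adl K)] (μ : Measure (Adl K)) (D : Set (Adl K))
    (φ : G K → ℂ) (g : G K) : ℂ :=
  ∫ x in D, φ (unipG886 x * g) ∂μ

/-- Unfolded form of `A0.IsCuspidalFn`: the function `n` is `unipG886`. -/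
theorem isCuspidalFn_iff886 (φ : G K → ℂ) :
    IsCuspidalFn φ ↔
      letI : MeasurableSpace (Adl K) := borel (Adl K)
      ∀ μ : Measure (Adl K), μ.IsAddHaarMeasure → ∀ D : Set (Adl K),
        IsAddFundamentalDomain (princ K) D μ → ∀ g : G K, constTerm886 μ D φ g = 0 := by
  constructor
  · intro h μ hμ D hD g
    exact h μ hμ D hD unipG886 coe_unipG886 g
  · intro h μ hμ D hD n hn g
    rw [eq_unipG886 n hn]
    exact h μ hμ D hD g

theorem isCuspidalFn_zero886 : IsCuspidalFn (fun _ : G K => (0 : ℂ)) := by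
  intro μ _ D _ n _ g
  simp

theorem isCuspidalFn_const_mul886 {φ : G K → ℂ} (c : ℂ) (hφ : IsCuspidalFn φ) :
    IsCuspidalFn (fun g => c * φ g) := by
  intro μ hμ D hD n hn g
  have := hφ μ hμ D hD n hn g
  rw [integral_const_mul, this, mul_zero]

theorem isCuspidalFn_neg886 {φ : G K → ℂ} (hφ : IsCuspidalFn φ) :
    IsCuspidalFn (fun g => -φ g) := by
  intro μ hμ D hD n hn g
  have := hφ μ hμ D hD n hn g
  rw [integral_neg, this, neg_zero]

/-- Cuspidality is invariant under right translation. -/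
theorem isCuspidalFn_shift886 {φ : G K → ℂ} (h : G K) (hφ : IsCuspidalFn φ) :
    IsCuspidalFn (fun g => φ (g * h)) := by
  intro μ hμ D hD n hn g
  have := hφ μ hμ D hD n hn (g * h)
  simpa only [mul_assoc] using this

theorem isCuspidalFn_add886 {φ ψ : G K → ℂ} (hφc : Continuous φ) {C : ℝ}
    (hφb : ∀ g, ‖φ g‖ ≤ C) (hψc : Continuous ψ) {C' : ℝ} (hψb : ∀ g, ‖ψ g‖ ≤ C')
    (hφ : IsCuspidalFn φ) (hψ : IsCuspidalFn ψ) : IsCuspidalFn (fun g => φ g + ψ g) := by
  rw [isCuspidalFn_iff886] at hφ hψ ⊢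
  let _ : MeasurableSpace (Adl K) := borel (Adl K)
  have : BorelSpace (Adl K) := ⟨rfl⟩
  intro μ hμ D hD g
  have := hμ
  have h1 := integrableOn_unip886 μ hD hφc hφb g
  have h2 := integrableOn_unip886 μ hD hψc hψb g
  have e := integral_add h1 h2
  have e1 : constTerm886 μ D φ g = 0 := hφ μ hμ D hD g
  have e2 : constTerm886 μ D ψ g = 0 := hψ μ hμ D hD g
  unfold constTerm886 at e1 e2 ⊢
  rw [e1, e2, add_zero] at e
  exact e

theorem isCuspidalFn_sub886 {φ ψ : G K → ℂ} (hφc : Continuous φ) {C : ℝ}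
    (hφb : ∀ g, ‖φ g‖ ≤ C) (hψc : Continuous ψ) {C' : ℝ} (hψb : ∀ g, ‖ψ g‖ ≤ C')
    (hφ : IsCuspidalFn φ) (hψ : IsCuspidalFn ψ) : IsCuspidalFn (fun g => φ g - ψ g) := by
  have hn : Continuous fun g => -ψ g := hψc.neg
  have h := isCuspidalFn_add886 (ψ := fun g => -ψ g) hφc hφb hn (C' := C')
    (fun g => by rw [norm_neg]; exact hψb g) hφ (isCuspidalFn_neg886 hψ)
  simpa only [sub_eq_add_neg] using h

/-- **Uniform limits**: a uniform limit of continuous bounded cuspidal functions is cuspidal. -/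
theorem isCuspidalFn_of_uniform_limit886 {φ : ℕ → G K → ℂ} {ψ : G K → ℂ}
    (hc : ∀ k, Continuous (φ k)) (hb : ∀ k, ∃ C : ℝ, ∀ g, ‖φ k g‖ ≤ C)
    (hcusp : ∀ k, IsCuspidalFn (φ k))
    (hlim : ∀ ε : ℝ, 0 < ε → ∃ N : ℕ, ∀ k ≥ N, ∀ g : G K, ‖φ k g - ψ g‖ ≤ ε) :
    IsCuspidalFn ψ := by
  -- `ψ` is continuous and bounded
  have hψc : Continuous ψ := by
    have hu : TendstoUniformly (fun k => φ k) ψ Filter.atTop := by
      rw [Metric.tendstoUniformly_iff]
      intro ε hε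
      obtain ⟨N, hN⟩ := hlim (ε / 2) (half_pos hε)
      filter_upwards [Filter.eventually_ge_atTop N] with k hk g
      rw [dist_comm, dist_eq_norm]
      exact lt_of_le_of_lt (hN k hk g) (half_lt_self hε)
    exact hu.continuous (Filter.Eventually.of_forall hc).frequently
  obtain ⟨N₁, hN₁⟩ := hlim 1 one_pos
  obtain ⟨C₁, hC₁⟩ := hb N₁
  have hψb : ∀ g, ‖ψ g‖ ≤ C₁ + 1 := by
    intro g
    have h1 := hN₁ N₁ le_rfl g
    have h2 : ψ g = φ N₁ g - (φ N₁ g - ψ g) := by ring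
    rw [h2]
    calc ‖φ N₁ g - (φ N₁ g - ψ g)‖ ≤ ‖φ N₁ g‖ + ‖φ N₁ g - ψ g‖ := norm_sub_le _ _
      _ ≤ C₁ + 1 := add_le_add (hC₁ g) h1
  rw [isCuspidalFn_iff886]
  let _ : MeasurableSpace (Adl K) := borel (Adl K)
  have : BorelSpace (Adl K) := ⟨rfl⟩
  intro μ hμ D hD g
  have := hμ
  have hfin := measure_lt_top_of_fundDom886 μ hD
  have hψi := integrableOn_unip886 μ hD hψc hψb g
  -- the constant term is smaller than every `ε · μ D`
  have key : ∀ ε : ℝ, 0 < ε → ‖constTerm886 μ D ψ g‖ ≤ ε * μ.real D := by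
    intro ε hε
    obtain ⟨N, hN⟩ := hlim ε hε
    obtain ⟨C, hC⟩ := hb N
    have hφi := integrableOn_unip886 μ hD (hc N) hC g
    have e0 : constTerm886 μ D (φ N) g = 0 := by
      have := (isCuspidalFn_iff886 (φ N)).mp (hcusp N)
      exact this μ hμ D hD g
    have e1 : constTerm886 μ D ψ g
        = -∫ x in D, (φ N (unipG886 x * g) - ψ (unipG886 x * g)) ∂μ := by
      rw [integral_sub hφi hψi]
      unfold constTerm886 at e0 ⊢
      rw [e0]
      ring
    rw [e1, norm_neg]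
    exact norm_setIntegral_le_of_norm_le_const hfin (fun x _ => hN N le_rfl _)
  by_contra hne
  have hpos : 0 < ‖constTerm886 μ D ψ g‖ := norm_pos_iff.mpr hne
  have hμpos : 0 < μ.real D + 1 := by
    have : 0 ≤ μ.real D := measureReal_nonneg
    linarith
  have h := key (‖constTerm886 μ D ψ g‖ / (2 * (μ.real D + 1)))
    (div_pos hpos (by linarith))
  have h3 : ‖constTerm886 μ D ψ g‖ / (2 * (μ.real D + 1)) * μ.real D
      ≤ ‖constTerm886 μ D ψ g‖ / 2 := by
    have h0 : 0 ≤ μ.real D := measureReal_nonneg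
    rw [div_mul_eq_mul_div, div_le_div_iff₀ (by linarith) (by norm_num)]
    nlinarith
  linarith

end Cuspidal

/-! ## 4. `T2.IsCuspFn 𝔫` is a `ℂ`-vector space of functions, closed under uniform limits -/

section CuspFn

variable {𝔫 : Ideal (𝓞 K)}

theorem isCuspFn_zero886 (𝔫 : Ideal (𝓞 K)) : IsCuspFn 𝔫 (fun _ : G K => (0 : ℂ)) where
  cont := continuous_const
  bdd := ⟨0, fun _ => by simp⟩
  left_inv := fun _ _ => rfl
  level_inv := fun _ _ _ => rfl
  arch_scalar := fun _ _ _ _ => rfl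
  arch_compact := fun _ _ _ _ => rfl
  cuspidal := isCuspidalFn_zero886

theorem isCuspFn_const_mul886 {φ : G K → ℂ} (c : ℂ) (h : IsCuspFn 𝔫 φ) :
    IsCuspFn 𝔫 (fun g => c * φ g) where
  cont := continuous_const.mul h.cont
  bdd := by
    obtain ⟨C, hC⟩ := h.bdd
    refine ⟨‖c‖ * C, fun g => ?_⟩
    rw [norm_mul]
    exact mul_le_mul_of_nonneg_left (hC g) (norm_nonneg c)
  left_inv := fun γ g => by rw [h.left_inv γ g]
  level_inv := fun u hu g => by rw [h.level_inv u hu g]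
  arch_scalar := fun w z hz g => by rw [h.arch_scalar w z hz g]
  arch_compact := fun w k hk g => by rw [h.arch_compact w k hk g]
  cuspidal := isCuspidalFn_const_mul886 c h.cuspidal

theorem isCuspFn_neg886 {φ : G K → ℂ} (h : IsCuspFn 𝔫 φ) : IsCuspFn 𝔫 (fun g => -φ g) := by
  have := isCuspFn_const_mul886 (-1) h
  simpa only [neg_one_mul] using this

theorem isCuspFn_add886 {φ ψ : G K → ℂ} (hφ : IsCuspFn 𝔫 φ) (hψ : IsCuspFn 𝔫 ψ) :
    IsCuspFn 𝔫 (fun g => φ g + ψ g) where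
  cont := hφ.cont.add hψ.cont
  bdd := by
    obtain ⟨C, hC⟩ := hφ.bdd
    obtain ⟨C', hC'⟩ := hψ.bdd
    exact ⟨C + C', fun g => le_trans (norm_add_le _ _) (add_le_add (hC g) (hC' g))⟩
  left_inv := fun γ g => by rw [hφ.left_inv γ g, hψ.left_inv γ g]
  level_inv := fun u hu g => by rw [hφ.level_inv u hu g, hψ.level_inv u hu g]
  arch_scalar := fun w z hz g => by rw [hφ.arch_scalar w z hz g, hψ.arch_scalar w z hz g]
  arch_compact := fun w k hk g => by rw [hφ.arch_compact w k hk g, hψ.arch_compact w k hk g]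
  cuspidal := by
    obtain ⟨C, hC⟩ := hφ.bdd
    obtain ⟨C', hC'⟩ := hψ.bdd
    exact isCuspidalFn_add886 hφ.cont hC hψ.cont hC' hφ.cuspidal hψ.cuspidal

theorem isCuspFn_sub886 {φ ψ : G K → ℂ} (hφ : IsCuspFn 𝔫 φ) (hψ : IsCuspFn 𝔫 ψ) :
    IsCuspFn 𝔫 (fun g => φ g - ψ g) := by
  have := isCuspFn_add886 hφ (isCuspFn_neg886 hψ)
  simpa only [sub_eq_add_neg] using this

/-- The linear combinations of `T2.OpsGood`. -/
theorem isCuspFn_add_const_mul886 {φ ψ : G K → ℂ} (c : ℂ) (hφ : IsCuspFn 𝔫 φ)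
    (hψ : IsCuspFn 𝔫 ψ) : IsCuspFn 𝔫 (fun g => φ g + c * ψ g) :=
  isCuspFn_add886 hφ (isCuspFn_const_mul886 c hψ)

theorem isCuspFn_sum886 {ι : Type*} (s : Finset ι) {φ : ι → G K → ℂ}
    (h : ∀ i ∈ s, IsCuspFn 𝔫 (φ i)) : IsCuspFn 𝔫 (fun g => ∑ i ∈ s, φ i g) := by
  induction s using Finset.induction_on with
  | empty => simpa using isCuspFn_zero886 𝔫
  | insert a s ha ih =>
    have h1 := h a (Finset.mem_insert_self a s)
    have h2 := ih fun i hi => h i (Finset.mem_insert_of_mem hi)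
    have := isCuspFn_add886 h1 h2
    simpa only [Finset.sum_insert ha] using this

/-- **Uniform limits** of cusp functions are cusp functions. -/
theorem isCuspFn_of_uniform_limit886 {φ : ℕ → G K → ℂ} {ψ : G K → ℂ}
    (h : ∀ k, IsCuspFn 𝔫 (φ k))
    (hlim : ∀ ε : ℝ, 0 < ε → ∃ N : ℕ, ∀ k ≥ N, ∀ g : G K, ‖φ k g - ψ g‖ ≤ ε) :
    IsCuspFn 𝔫 ψ := by
  -- pointwise limits
  have hpt : ∀ g : G K, Filter.Tendsto (fun k => φ k g) Filter.atTop (nhds (ψ g)) := by
    intro g
    rw [Metric.tendsto_atTop]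
    intro ε hε
    obtain ⟨N, hN⟩ := hlim (ε / 2) (half_pos hε)
    refine ⟨N, fun k hk => ?_⟩
    rw [dist_eq_norm]
    exact lt_of_le_of_lt (hN k hk g) (half_lt_self hε)
  have hinv : ∀ g g' : G K, (∀ k, φ k g = φ k g') → ψ g = ψ g' := by
    intro g g' hk
    refine tendsto_nhds_unique (hpt g) ?_
    have : (fun k => φ k g) = fun k => φ k g' := funext hk
    rw [this]
    exact hpt g'
  have hu : TendstoUniformly (fun k => φ k) ψ Filter.atTop := by
    rw [Metric.tendstoUniformly_iff]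
    intro ε hε
    obtain ⟨N, hN⟩ := hlim (ε / 2) (half_pos hε)
    filter_upwards [Filter.eventually_ge_atTop N] with k hk g
    rw [dist_comm, dist_eq_norm]
    exact lt_of_le_of_lt (hN k hk g) (half_lt_self hε)
  obtain ⟨N₁, hN₁⟩ := hlim 1 one_pos
  obtain ⟨C₁, hC₁⟩ := (h N₁).bdd
  refine
    { cont := hu.continuous (Filter.Eventually.of_forall fun k => (h k).cont).frequently
      bdd := ⟨C₁ + 1, fun g => ?_⟩
      left_inv := fun γ g => hinv _ _ fun k => (h k).left_inv γ g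
      level_inv := fun u hu' g => hinv _ _ fun k => (h k).level_inv u hu' g
      arch_scalar := fun w z hz g => hinv _ _ fun k => (h k).arch_scalar w z hz g
      arch_compact := fun w k' hk g => hinv _ _ fun k => (h k).arch_compact w k' hk g
      cuspidal := isCuspidalFn_of_uniform_limit886 (fun k => (h k).cont) (fun k => (h k).bdd)
        (fun k => (h k).cuspidal) hlim }
  have h1 := hN₁ N₁ le_rfl g
  have h2 : ψ g = φ N₁ g - (φ N₁ g - ψ g) := by ring
  rw [h2]
  calc ‖φ N₁ g - (φ N₁ g - ψ g)‖ ≤ ‖φ N₁ g‖ + ‖φ N₁ g - ψ g‖ := norm_sub_le _ _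
    _ ≤ C₁ + 1 := add_le_add (hC₁ g) h1

end CuspFn

/-! ## 5. The pairing of a frame on continuous bounded functions -/

section Pair

attribute [local instance] Fermat.Agent.LT.T2.borelG

theorem borelSpace_G886 : BorelSpace (G K) := ⟨rfl⟩

variable (F : Frame K)

/-- `φ · conj ψ` is integrable on the domain of a frame, for `φ`, `ψ` continuous and bounded. -/
theorem integrableOn_mul_conj886 {φ ψ : G K → ℂ} (hφc : Continuous φ) {C : ℝ}
    (hφb : ∀ g, ‖φ g‖ ≤ C) (hψc : Continuous ψ) {C' : ℝ} (hψb : ∀ g, ‖ψ g‖ ≤ C') :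
    IntegrableOn (fun g => φ g * (starRingEnd ℂ) (ψ g)) F.D F.μ := by
  have := borelSpace_G886 (K := K)
  have hcont : Continuous fun g => φ g * (starRingEnd ℂ) (ψ g) :=
    hφc.mul (Complex.continuous_conj.comp hψc)
  refine Measure.integrableOn_of_bounded (M := C * C') F.fin.ne hcont.aestronglyMeasurable ?_
  refine Filter.Eventually.of_forall fun g => ?_
  rw [norm_mul, RCLike.norm_conj]
  exact mul_le_mul (hφb g) (hψb g) (norm_nonneg _) (le_trans (norm_nonneg _) (hφb g))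

theorem pair_add_left886 {φ ψ χ : G K → ℂ} (hφc : Continuous φ) {C : ℝ}
    (hφb : ∀ g, ‖φ g‖ ≤ C) (hψc : Continuous ψ) {C' : ℝ} (hψb : ∀ g, ‖ψ g‖ ≤ C')
    (hχc : Continuous χ) {C'' : ℝ} (hχb : ∀ g, ‖χ g‖ ≤ C'') :
    pair F (fun g => φ g + ψ g) χ = pair F φ χ + pair F ψ χ := by
  unfold pair
  rw [← integral_add (integrableOn_mul_conj886 F hφc hφb hχc hχb)
    (integrableOn_mul_conj886 F hψc hψb hχc hχb)]
  congr 1
  funext g
  ring

theorem pair_const_mul_left886 (c : ℂ) (φ χ : G K → ℂ) :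
    pair F (fun g => c * φ g) χ = c * pair F φ χ := by
  unfold pair
  rw [← integral_const_mul]
  congr 1
  funext g
  ring

theorem pair_conj_symm886 (φ ψ : G K → ℂ) :
    (starRingEnd ℂ) (pair F φ ψ) = pair F ψ φ := by
  unfold pair
  rw [← integral_conj]
  congr 1
  funext g
  simp [mul_comm]

theorem pair_add_right886 {φ ψ χ : G K → ℂ} (hφc : Continuous φ) {C : ℝ}
    (hφb : ∀ g, ‖φ g‖ ≤ C) (hψc : Continuous ψ) {C' : ℝ} (hψb : ∀ g, ‖ψ g‖ ≤ C')
    (hχc : Continuous χ) {C'' : ℝ} (hχb : ∀ g, ‖χ g‖ ≤ C'') :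
    pair F χ (fun g => φ g + ψ g) = pair F χ φ + pair F χ ψ := by
  rw [← pair_conj_symm886 F (fun g => φ g + ψ g) χ,
    pair_add_left886 F hφc hφb hψc hψb hχc hχb, map_add, pair_conj_symm886, pair_conj_symm886]

theorem pair_const_mul_right886 (c : ℂ) (φ χ : G K → ℂ) :
    pair F χ (fun g => c * φ g) = (starRingEnd ℂ) c * pair F χ φ := by
  rw [← pair_conj_symm886 F (fun g => c * φ g) χ, pair_const_mul_left886, map_mul,
    pair_conj_symm886]

theorem pair_neg_left886 (φ χ : G K → ℂ) : pair F (fun g => -φ g) χ = -pair F φ χ := by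
  have := pair_const_mul_left886 F (-1) φ χ
  simpa only [neg_one_mul] using this

theorem pair_sub_left886 {φ ψ χ : G K → ℂ} (hφc : Continuous φ) {C : ℝ}
    (hφb : ∀ g, ‖φ g‖ ≤ C) (hψc : Continuous ψ) {C' : ℝ} (hψb : ∀ g, ‖ψ g‖ ≤ C')
    (hχc : Continuous χ) {C'' : ℝ} (hχb : ∀ g, ‖χ g‖ ≤ C'') :
    pair F (fun g => φ g - ψ g) χ = pair F φ χ - pair F ψ χ := by
  have hn : Continuous fun g => -ψ g := hψc.neg
  have h := pair_add_left886 F (ψ := fun g => -ψ g) hφc hφb hn (C' := C')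
    (fun g => by rw [norm_neg]; exact hψb g) hχc hχb
  rw [pair_neg_left886] at h
  simpa only [sub_eq_add_neg] using h

/-- `⟨φ, φ⟩ = ∫_D |φ|²`. -/
theorem pair_self886 (φ : G K → ℂ) :
    pair F φ φ = ((∫ g in F.D, ‖φ g‖ ^ 2 ∂F.μ : ℝ) : ℂ) := by
  unfold pair
  rw [← integral_complex_ofReal]
  congr 1
  funext g
  rw [Complex.mul_conj, Complex.normSq_eq_norm_sq]

theorem nsq_eq886 (φ : G K → ℂ) : nsq F φ = ∫ g in F.D, ‖φ g‖ ^ 2 ∂F.μ := by
  unfold nsq
  rw [pair_self886, Complex.ofReal_re]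

theorem pair_self_eq_nsq886 (φ : G K → ℂ) : pair F φ φ = ((nsq F φ : ℝ) : ℂ) := by
  rw [nsq_eq886, pair_self886]

theorem nsq_nonneg886 (φ : G K → ℂ) : 0 ≤ nsq F φ := by
  rw [nsq_eq886]
  exact integral_nonneg fun g => by positivity

/-- The `L²`-norm is bounded by the sup norm: `‖φ‖₂² ≤ ε² · μ(D)`. -/
theorem nsq_le_of_bound886 {φ : G K → ℂ} {ε : ℝ} (hb : ∀ g, ‖φ g‖ ≤ ε) :
    nsq F φ ≤ ε ^ 2 * F.μ.real F.D := by
  rw [nsq_eq886]
  have h := norm_setIntegral_le_of_norm_le_const (μ := F.μ) (s := F.D)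
    (f := fun g => ‖φ g‖ ^ 2) (C := ε ^ 2) F.fin (fun g _ => by
      rw [Real.norm_eq_abs, abs_of_nonneg (by positivity)]
      exact pow_le_pow_left₀ (norm_nonneg _) (hb g) 2)
  exact le_trans (le_abs_self _) (by simpa [Real.norm_eq_abs] using h)

end Pair

/-! ## 6. The pre-Hilbert space of cusp functions -/

section Space

attribute [local instance] Fermat.Agent.LT.T2.borelG

/-- The `ℂ`-vector space of cusp functions of level `U(𝔫)`. -/
def cuspSubmodule886 (𝔫 : Ideal (𝓞 K)) : Submodule ℂ (G K → ℂ) where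
  carrier := {φ | IsCuspFn 𝔫 φ}
  add_mem' := fun hφ hψ => isCuspFn_add886 hφ hψ
  zero_mem' := isCuspFn_zero886 𝔫
  smul_mem' := fun c _ hφ => isCuspFn_const_mul886 c hφ

theorem mem_cuspSubmodule886 {𝔫 : Ideal (𝓞 K)} {φ : G K → ℂ} :
    φ ∈ cuspSubmodule886 𝔫 ↔ IsCuspFn 𝔫 φ := Iff.rfl

variable (F : Frame K) (𝔫 : Ideal (𝓞 K))

/-- The semi-definite Hermitian form of a frame on the cusp functions
(`inner x y = pair F y x`: Mathlib's inner products are linear in the SECOND variable). -/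
@[reducible] def preCore886 : PreInnerProductSpace.Core ℂ (cuspSubmodule886 (K := K) 𝔫) where
  inner x y := pair F y.1 x.1
  conj_inner_symm x y := pair_conj_symm886 F x.1 y.1
  re_inner_nonneg x := nsq_nonneg886 F x.1
  add_left x y z := by
    obtain ⟨C, hC⟩ := x.2.bdd
    obtain ⟨C', hC'⟩ := y.2.bdd
    obtain ⟨C'', hC''⟩ := z.2.bdd
    exact pair_add_right886 F x.2.cont hC y.2.cont hC' z.2.cont hC''
  smul_left x y r := pair_const_mul_right886 F r x.1 y.1

/-- **Cauchy--Schwarz** for the pairing of a frame on cusp functions. -/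
theorem norm_pair_sq_le886 {φ ψ : G K → ℂ} (hφ : IsCuspFn 𝔫 φ) (hψ : IsCuspFn 𝔫 ψ) :
    ‖pair F φ ψ‖ ^ 2 ≤ nsq F φ * nsq F ψ := by
  have h := @InnerProductSpace.Core.inner_mul_inner_self_le ℂ (cuspSubmodule886 (K := K) 𝔫) _ _ _
    (preCore886 F 𝔫) ⟨ψ, hψ⟩ ⟨φ, hφ⟩
  have e1 : ‖pair F ψ φ‖ = ‖pair F φ ψ‖ := by
    rw [← pair_conj_symm886 F φ ψ, RCLike.norm_conj]
  have h' : ‖pair F φ ψ‖ * ‖pair F ψ φ‖ ≤ nsq F ψ * nsq F φ := h
  rw [e1] at h'
  rw [sq, mul_comm (nsq F φ)]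
  exact h'

/-- The Hermitian form of a frame on the cusp functions is an inner product, by
`T2.PairDefinite`. -/
@[reducible] def core886 (h : PairDefinite K 𝔫) : InnerProductSpace.Core ℂ (cuspSubmodule886 (K := K) 𝔫) :=
  { preCore886 F 𝔫 with
    definite := fun x hx => Subtype.ext (funext ((h F x.1 x.2).2 hx)) }

theorem core886_inner (h : PairDefinite K 𝔫) (x y : cuspSubmodule886 (K := K) 𝔫) :
    (core886 F 𝔫 h).inner x y = pair F y.1 x.1 := rfl

/-- `‖φ_k - ψ‖_∞ → 0` implies `‖φ_k - ψ‖₂ → 0` on the domain of a frame. -/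
theorem tendsto_nsq_of_uniform_limit886 {φ : ℕ → G K → ℂ} {ψ : G K → ℂ}
    (hlim : ∀ ε : ℝ, 0 < ε → ∃ N : ℕ, ∀ k ≥ N, ∀ g : G K, ‖φ k g - ψ g‖ ≤ ε) :
    Filter.Tendsto (fun k => nsq F (fun g => φ k g - ψ g)) Filter.atTop (nhds 0) := by
  rw [Metric.tendsto_atTop]
  intro ε hε
  have hμ : 0 ≤ F.μ.real F.D := measureReal_nonneg
  -- choose `δ` with `δ² (μ D + 1) ≤ ε / 2`
  set δ : ℝ := Real.sqrt (ε / (2 * (F.μ.real F.D + 1))) with hδ
  have hpos : 0 < ε / (2 * (F.μ.real F.D + 1)) := div_pos hε (by linarith)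
  have hδpos : 0 < δ := Real.sqrt_pos.mpr hpos
  have hδsq : δ ^ 2 = ε / (2 * (F.μ.real F.D + 1)) := Real.sq_sqrt hpos.le
  obtain ⟨N, hN⟩ := hlim δ hδpos
  refine ⟨N, fun k hk => ?_⟩
  have h1 := nsq_le_of_bound886 F (φ := fun g => φ k g - ψ g) (hN k hk)
  have h0 := nsq_nonneg886 F (fun g => φ k g - ψ g)
  rw [Real.dist_eq, sub_zero, abs_of_nonneg h0]
  refine lt_of_le_of_lt h1 ?_
  rw [hδsq, div_mul_eq_mul_div, div_lt_iff₀ (by linarith)]
  nlinarith

/-- **Completeness for the sup norm**: a uniformly Cauchy sequence of cusp functions converges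
uniformly, and in `L²` of every frame, to a cusp function. -/
theorem exists_limit_of_uniformCauchy886 {φ : ℕ → G K → ℂ} (h : ∀ k, IsCuspFn 𝔫 (φ k))
    (hC : ∀ ε : ℝ, 0 < ε → ∃ N : ℕ, ∀ k ≥ N, ∀ l ≥ N, ∀ g : G K, ‖φ k g - φ l g‖ ≤ ε) :
    ∃ ψ : G K → ℂ, IsCuspFn 𝔫 ψ ∧
      (∀ ε : ℝ, 0 < ε → ∃ N : ℕ, ∀ k ≥ N, ∀ g : G K, ‖φ k g - ψ g‖ ≤ ε) ∧
      ∀ F : Frame K,
        Filter.Tendsto (fun k => nsq F (fun g => φ k g - ψ g)) Filter.atTop (nhds 0) := by
  -- pointwise limits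
  have hcs : ∀ g : G K, CauchySeq fun k => φ k g := by
    intro g
    rw [Metric.cauchySeq_iff]
    intro ε hε
    obtain ⟨N, hN⟩ := hC (ε / 2) (half_pos hε)
    refine ⟨N, fun k hk l hl => ?_⟩
    rw [dist_eq_norm]
    exact lt_of_le_of_lt (hN k hk l hl g) (half_lt_self hε)
  choose ψ hψ using fun g => cauchySeq_tendsto_of_complete (hcs g)
  have hlim : ∀ ε : ℝ, 0 < ε → ∃ N : ℕ, ∀ k ≥ N, ∀ g : G K, ‖φ k g - ψ g‖ ≤ ε := by
    intro ε hε
    obtain ⟨N, hN⟩ := hC ε hε
    refine ⟨N, fun k hk g => ?_⟩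
    have ht : Filter.Tendsto (fun l => ‖φ k g - φ l g‖) Filter.atTop (nhds ‖φ k g - ψ g‖) :=
      (tendsto_const_nhds.sub (hψ g)).norm
    refine le_of_tendsto ht ?_
    filter_upwards [Filter.eventually_ge_atTop N] with l hl
    exact hN k hk l hl g
  exact ⟨ψ, isCuspFn_of_uniform_limit886 h hlim, hlim,
    fun F => tendsto_nsq_of_uniform_limit886 F hlim⟩

end Space

end Fermat.Agent.LT.T2.H886
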