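import Fermat.Agent.LT.T2.H941.SmoSpec
import Fermat.Agent.LT.H886.DoubleCoset

/-!
# Row LT, tower T2, station T2.10 (SMO), leaf T2.10.14 `HeckeAdjC` (helper886, registry 1107)

OFF-MAIN.  Imports (byte-identical copies): `LT/T2/H941/SmoSpec.lean` (helper941@8afa9067a,
sha256 41255efa...; with A0 66d3374a, T1/Spec e8ae48d6, T2/Spec 1b305586, T3/Spec 44de320b) and
`LT/H886/DoubleCoset.lean` (mine; on helper129's `LT/H129/{Cartan,HeckeA0}.lean`).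

**The adjoint of `T_v` is `S_v⁻¹ T_v`** on `GL₂(𝒪_v)`-invariant functions of the class `IsAut0`:

* `heckeAdjC_of_pairC886 : H941.PairC K → H941.HeckeAdjC K`,
* `leaf14_886 : H941.Leaf14 K` (VERBATIM; the hypothesis `T1.T1Out K` is not used).

Proof.  `⟨R(h) f₁, f₂⟩ = ⟨f₁, R(h⁻¹) f₂⟩` (invariance of the pairing), and for EVERY `h` of the
coset system `h⁻¹ = u₁ (z⁻¹ h) u₂` with `u₁, u₂ ∈ GL₂(𝒪_v)` (`exists_localMaxCpt_inv886`: Cartan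
decomposition), so that `⟨f₁, R(h⁻¹) f₂⟩ = ⟨R(u₁⁻¹) f₁, R(z⁻¹ h) R(u₂) f₂⟩ = ⟨f₁, R(z⁻¹ h) f₂⟩`:
the two sums agree TERM BY TERM (no bijection of cosets, no counting).
-/

set_option autoImplicit false

open IsDedekindDomain NumberField MeasureTheory AutomorphicForm
open Fermat.Agent.LT.H556.A0

noncomputable section

namespace Fermat.Agent.LT.T2.H886

open Fermat.Agent.LT.T2.H941 Fermat.Agent.LT.H129 Fermat.Agent.LT.H886

variable {K : Type} [Field K] [NumberField K]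

/-- A `GL₂(𝒪_v)`-invariant function is fixed by the right translations by `GL₂(𝒪_v)`. -/
theorem rt_eq_self_of_isKv886 {v : HeightOneSpectrum (𝓞 K)} {f : G K → ℂ} (hf : IsKv v f)
    {u : G K} (hu : IsLocalMaxCptAt129 v u) : rt u f = f := by
  funext x
  exact hf u hu.1 hu.2.1 hu.2.2 x

/-- `y ↦ ⟨f₁, R(y) f₂⟩` is bi-invariant under `GL₂(𝒪_v)`. -/
theorem pair_rt_biinv886 (F : T2.Frame K)
    (hinv : ∀ (g : G K) (f₁ f₂ : G K → ℂ), IsAut0 f₁ → IsAut0 f₂ →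
      T2.pair F (rt g f₁) (rt g f₂) = T2.pair F f₁ f₂)
    {v : HeightOneSpectrum (𝓞 K)} {f₁ f₂ : G K → ℂ} (ha₁ : IsAut0 f₁) (ha₂ : IsAut0 f₂)
    (hk₁ : IsKv v f₁) (hk₂ : IsKv v f₂) {u₁ u₂ : G K} (hu₁ : IsLocalMaxCptAt129 v u₁)
    (hu₂ : IsLocalMaxCptAt129 v u₂) (y : G K) :
    T2.pair F f₁ (rt (u₁ * y * u₂) f₂) = T2.pair F f₁ (rt y f₂) := by
  have e1 : rt (u₁ * y * u₂) f₂ = rt u₁ (rt y f₂) := by
    rw [← rt_rt, rt_eq_self_of_isKv886 hk₂ hu₂, ← rt_rt]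
  rw [e1]
  have e2 := hinv u₁ f₁ (rt y f₂) ha₁ (isAut0_rt y ha₂)
  rw [rt_eq_self_of_isKv886 hk₁ hu₁] at e2
  exact e2

/-- **T2.10.14**: the adjoint of `T_v` is `S_v⁻¹ T_v`. -/
theorem heckeAdjC_of_pairC886 (hP : PairC K) : HeckeAdjC K := by
  intro F v f₁ f₂ ha₁ ha₂ hk₁ hk₂ H hH z hz
  obtain ⟨hadd, -, hinv⟩ := hP F
  -- the left side
  have eL : T2.heckeSum H f₁ = fun x => ∑ h ∈ H, (1 : ℂ) * rt h f₁ x := by
    funext x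
    simp [T2.heckeSum, rt]
  have eR : rt z⁻¹ (T2.heckeSum H f₂) = fun x => ∑ h ∈ H, (1 : ℂ) * rt (z⁻¹ * h) f₂ x := by
    funext x
    simp [T2.heckeSum, rt, mul_assoc]
  rw [eL, eR, pair_sum_left F hadd H (fun _ => 1) (fun h => rt h f₁) (fun h => isAut0_rt h ha₁)
      f₂ ha₂,
    pair_sum_right F hadd H (fun _ => 1) (fun h => rt (z⁻¹ * h) f₂)
      (fun h => isAut0_rt (z⁻¹ * h) ha₂) f₁ ha₁]
  refine Finset.sum_congr rfl fun h hh => ?_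
  rw [map_one]
  congr 1
  -- `⟨R(h) f₁, f₂⟩ = ⟨f₁, R(h⁻¹) f₂⟩`
  have e1 : T2.pair F (rt h f₁) f₂ = T2.pair F f₁ (rt h⁻¹ f₂) := by
    have := hinv h⁻¹ (rt h f₁) f₂ (isAut0_rt h ha₁) ha₂
    rw [rt_rt, inv_mul_cancel, rt_one] at this
    exact this.symm
  -- `h⁻¹ ∈ GL₂(𝒪_v) (z⁻¹ h) GL₂(𝒪_v)`
  obtain ⟨hl, hi, hd⟩ := hH.2.1 h hh
  obtain ⟨u₁, u₂, hu₁, hu₂, e⟩ := exists_localMaxCpt_inv886 hl hi hd hl hi hd hz
  rw [e1, e]
  exact pair_rt_biinv886 F hinv ha₁ ha₂ hk₁ hk₂ hu₁ hu₂ (z⁻¹ * h)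

variable (K)

/-- **Leaf T2.10.14** of station T2.10 (helper941 `SmoSpec.lean`), VERBATIM. -/
theorem leaf14_886 : Leaf14 K := fun _ hP => heckeAdjC_of_pairC886 hP

end Fermat.Agent.LT.T2.H886
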